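import Mathlib.Analysis.Complex.BorelCaratheodory
import Mathlib.Analysis.Complex.HasPrimitives
import Mathlib.Analysis.Complex.Liouville
import Mathlib.Analysis.Complex.TaylorSeries
import Mathlib.Analysis.SpecialFunctions.Complex.Log
import Mathlib.Analysis.Normed.Group.Tannery

/-!
# Logarithms and interpolation on discs

Analytic branches of the logarithm on a disc, the Borel-Carathéodory inequality centred anywhere,
and an interpolation principle: analytic functions on a disc whose real parts are bounded above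
linearly in `n`, and by a constant near the centre, are `o(n)` on the whole disc.
-/

set_option autoImplicit false

noncomputable section

namespace FA.Jentzsch

open Complex Metric Filter Topology

/-- A zero-free holomorphic function on a disc has a logarithm, normalised at the centre. -/
theorem exists_log_on_ball {f : ℂ → ℂ} {c : ℂ} {r : ℝ} (hr : 0 < r)
    (hf : DifferentiableOn ℂ f (ball c r)) (h0 : ∀ z ∈ ball c r, f z ≠ 0) :
    ∃ G : ℂ → ℂ, DifferentiableOn ℂ G (ball c r) ∧ G c = log (f c) ∧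
      ∀ z ∈ ball c r, exp (G z) = f z := by
  obtain ⟨G, hGc, hG⟩ :=
    ((hf.deriv isOpen_ball).div hf h0).isExactOn_ball.with_val_at c (log (f c))
  refine ⟨G, fun z hz => (hG z hz).differentiableAt.differentiableWithinAt, hGc, fun z hz => ?_⟩
  have hd : ∀ x ∈ ball c r, HasDerivAt (fun y => exp (-G y) * f y) 0 x := fun x hx => by
    have h1 : HasDerivAt f (deriv f x) x :=
      ((hf x hx).differentiableAt (isOpen_ball.mem_nhds hx)).hasDerivAt
    refine ((hG x hx).neg.cexp.mul h1).congr_deriv ?_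
    have := h0 x hx
    simp only [Pi.neg_apply, Pi.div_apply]
    field_simp
    ring
  have hc : c ∈ ball c r := mem_ball_self hr
  have heq := isOpen_ball.is_const_of_deriv_eq_zero (convex_ball c r).isPreconnected
    (fun x hx => (hd x hx).differentiableAt.differentiableWithinAt)
    (fun x hx => (hd x hx).deriv) hz hc
  have h1 : exp (-G z) * f z = 1 := by
    rw [heq, hGc, exp_neg, exp_log (h0 c hc), inv_mul_cancel₀ (h0 c hc)]
  rw [exp_neg, inv_mul_eq_one₀ (exp_ne_zero _)] at h1
  exact h1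

/-- The Borel-Carathéodory inequality centred at an arbitrary point. -/
theorem norm_sub_center_le {f : ℂ → ℂ} {c : ℂ} {r s M : ℝ} (hM : 0 < M) (hsr : s < r)
    (hf : DifferentiableOn ℂ f (ball c r)) (hre : ∀ z ∈ ball c r, (f z - f c).re ≤ M)
    {z : ℂ} (hz : z ∈ closedBall c s) : ‖f z - f c‖ ≤ 2 * M * s / (r - s) := by
  have hs : 0 ≤ s := nonempty_closedBall.1 ⟨z, hz⟩
  have hmaps : Set.MapsTo (fun x => c + x) (ball (0 : ℂ) r) (ball c r) := fun x hx => by
    simpa [mem_ball, dist_eq] using hx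
  have hd : DifferentiableOn ℂ (fun x => f (c + x) - f c) (ball 0 r) :=
    (hf.comp (by fun_prop) hmaps).sub_const _
  have hzs : ‖z - c‖ ≤ s := by simpa [mem_closedBall, dist_eq] using hz
  have h := borelCaratheodory_zero hM hd (fun x hx => hre _ (hmaps hx)) (hs.trans_lt hsr)
    (mem_ball_zero_iff.2 (hzs.trans_lt hsr)) (by simp)
  simp only [add_sub_cancel] at h
  exact h.trans (div_le_div₀ (by positivity) (by nlinarith) (by linarith) (by linarith))

/-- Bound for the Taylor coefficients at the centre of a disc. -/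
theorem norm_taylorCoeff_le {f : ℂ → ℂ} {c : ℂ} {r s C : ℝ} (hs : 0 < s) (hsr : s < r)
    (hf : DifferentiableOn ℂ f (ball c r)) (hC : ∀ z ∈ closedBall c s, ‖f z‖ ≤ C) (k : ℕ) :
    ‖(k.factorial : ℂ)⁻¹ * iteratedDeriv k f c‖ ≤ C / s ^ k := by
  have h := norm_iteratedDeriv_le_of_forall_mem_sphere_norm_le k hs
    (hf.diffContOnCl_ball (closedBall_subset_ball hsr))
    (fun z hz => hC z (sphere_subset_closedBall hz))
  have hk : (0 : ℝ) < k.factorial := by exact_mod_cast k.factorial_pos
  rw [norm_mul, norm_inv, norm_natCast]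
  calc (k.factorial : ℝ)⁻¹ * ‖iteratedDeriv k f c‖
      ≤ (k.factorial : ℝ)⁻¹ * (k.factorial * C / s ^ k) :=
        mul_le_mul_of_nonneg_left h (by positivity)
    _ = C / s ^ k := by field_simp

/-- Interpolation between a linear bound on a disc and a constant bound near its centre. -/
theorem tendsto_div_of_re_bounds {c w : ℂ} {r ρ M L : ℝ} (hM : 0 < M) (hL : 0 < L)
    (hρ : 0 < ρ) (hρr : ρ ≤ r) (hw : w ∈ ball c r) {G : ℕ → ℂ → ℂ}
    (hG : ∀ᶠ n in atTop, DifferentiableOn ℂ (G n) (ball c r) ∧ G n c = 0 ∧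
      (∀ z ∈ ball c r, (G n z).re ≤ M * (n : ℝ)) ∧ ∀ z ∈ ball c ρ, (G n z).re ≤ L) :
    Tendsto (fun n : ℕ => G n w / n) atTop (𝓝 0) := by
  have hwr : ‖w - c‖ < r := by simpa [mem_ball, dist_eq] using hw
  obtain ⟨s, hws, hsr⟩ := exists_between hwr
  have hs : 0 < s := (norm_nonneg _).trans_lt hws
  set q := ‖w - c‖ / s with hqdef
  have hq : q < 1 := (div_lt_one hs).2 hws
  have hq0 : 0 ≤ q := div_nonneg (norm_nonneg _) hs.le
  set K := 2 * M * s / (r - s) with hKdef
  have hK : 0 ≤ K := div_nonneg (by positivity) (by linarith)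
  let T : ℕ → ℕ → ℂ := fun n k =>
    ((k.factorial : ℂ)⁻¹ • (w - c) ^ k • iteratedDeriv k (G n) c) / n
  have hTeq : ∀ n k, ‖T n k‖ =
      ‖(k.factorial : ℂ)⁻¹ * iteratedDeriv k (G n) c‖ * ‖w - c‖ ^ k / n := fun n k => by
    simp only [T, smul_eq_mul, norm_div, norm_mul, norm_pow, norm_natCast]
    ring
  have hbig : ∀ᶠ n in atTop, ∀ k, ‖T n k‖ ≤ K * q ^ k := by
    filter_upwards [hG, eventually_gt_atTop 0] with n ⟨hd, hc, hre, _⟩ hn k
    have hn' : (0 : ℝ) < n := by exact_mod_cast hn
    have hb : ∀ z ∈ closedBall c s, ‖G n z‖ ≤ 2 * (M * n) * s / (r - s) := fun z hz => by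
      have h := norm_sub_center_le (mul_pos hM hn') hsr hd
        (fun x hx => by simpa [hc] using hre x hx) hz
      simpa [hc] using h
    have h2 := norm_taylorCoeff_le hs hsr hd hb k
    rw [hTeq, div_le_iff₀ hn']
    calc ‖(k.factorial : ℂ)⁻¹ * iteratedDeriv k (G n) c‖ * ‖w - c‖ ^ k
        ≤ 2 * (M * n) * s / (r - s) / s ^ k * ‖w - c‖ ^ k :=
          mul_le_mul_of_nonneg_right h2 (by positivity)
      _ = K * q ^ k * n := by rw [hqdef, hKdef, div_pow]; ring
  have hsmall : ∀ k, Tendsto (fun n => T n k) atTop (𝓝 0) := by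
    intro k
    refine squeeze_zero_norm'
      (a := fun n : ℕ => 2 * L / (ρ / 2) ^ k * ‖w - c‖ ^ k / n) ?_
      (tendsto_const_div_atTop_nhds_zero_nat _)
    filter_upwards [hG] with n ⟨hd, hc, _, hre⟩
    have hd' := hd.mono (ball_subset_ball hρr)
    have hb : ∀ z ∈ closedBall c (ρ / 2), ‖G n z‖ ≤ 2 * L := fun z hz => by
      have h := norm_sub_center_le hL (half_lt_self hρ) hd'
        (fun x hx => by simpa [hc] using hre x hx) hz
      rw [hc, sub_zero] at h
      exact h.trans (by rw [sub_half, mul_div_assoc, div_self (half_pos hρ).ne', mul_one])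
    rw [hTeq]
    gcongr
    exact norm_taylorCoeff_le (half_pos hρ) (half_lt_self hρ) hd' hb k
  have hlim : Tendsto (fun n => ∑' k, T n k) atTop (𝓝 (∑' _ : ℕ, (0 : ℂ))) :=
    tendsto_tsum_of_dominated_convergence
      ((summable_geometric_of_lt_one hq0 hq).mul_left K) hsmall hbig
  rw [tsum_zero] at hlim
  refine hlim.congr' ?_
  filter_upwards [hG] with n ⟨hd, _, _, _⟩
  exact ((hasSum_taylorSeries_on_ball hd hw).div_const _).tsum_eq

end FA.Jentzsch
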