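import Fermat.Agent.Jentzsch.Analysis
import Mathlib.Analysis.Analytic.OfScalars
import Mathlib.Analysis.Analytic.Uniqueness
import Mathlib.Analysis.Analytic.IsolatedZeros

/-!
# Jentzsch's theorem

Every point of the circle of convergence is a limit of zeros of partial sums.
-/

set_option autoImplicit false

noncomputable section

namespace FA.Jentzsch

open Complex Metric Filter Topology Finset
open scoped NNReal ENNReal

/-- The `n`-th partial sum of `∑ a k * z ^ k`. -/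
def psum (a : ℕ → ℂ) (n : ℕ) (z : ℂ) : ℂ := ∑ k ∈ range (n + 1), a k * z ^ k

variable {a : ℕ → ℂ}

theorem differentiableOn_psum (a : ℕ → ℂ) (n : ℕ) (s : Set ℂ) :
    DifferentiableOn ℂ (psum a n) s := by
  unfold psum
  fun_prop

theorem norm_psum_le_tsum {r : ℝ} (hs : Summable fun n => ‖a n‖ * r ^ n) {z : ℂ}
    (hz : ‖z‖ ≤ r) (n : ℕ) : ‖psum a n z‖ ≤ ∑' k, ‖a k‖ * r ^ k := by
  have hr : 0 ≤ r := (norm_nonneg z).trans hz
  refine (norm_sum_le _ _).trans ?_
  refine le_trans (sum_le_sum fun k _ => ?_)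
    (hs.sum_le_tsum (range (n + 1)) fun k _ => by positivity)
  rw [norm_mul, norm_pow]
  gcongr

theorem norm_psum_le_pow {C r z₁ : ℝ} (hr : 0 < r) (hC : ∀ k, ‖a k‖ * r ^ k ≤ C)
    (hz₁ : 2 ≤ z₁ / r) {z : ℂ} (hz : ‖z‖ ≤ z₁) (n : ℕ) :
    ‖psum a n z‖ ≤ C * (z₁ / r) ^ (n + 1) := by
  have hC0 : 0 ≤ C := le_trans (by positivity) (hC 0)
  calc ‖psum a n z‖ ≤ ∑ k ∈ range (n + 1), ‖a k * z ^ k‖ := norm_sum_le _ _
    _ ≤ ∑ k ∈ range (n + 1), C * (z₁ / r) ^ k := by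
        refine sum_le_sum fun k _ => ?_
        rw [norm_mul, norm_pow, div_pow, mul_div_assoc', le_div_iff₀ (by positivity)]
        calc ‖a k‖ * ‖z‖ ^ k * r ^ k = ‖a k‖ * r ^ k * ‖z‖ ^ k := by ring
          _ ≤ C * z₁ ^ k := mul_le_mul (hC k) (pow_le_pow_left₀ (norm_nonneg _) hz k)
              (by positivity) hC0
    _ = C * ∑ k ∈ range (n + 1), (z₁ / r) ^ k := (mul_sum _ _ _).symm
    _ ≤ C * (z₁ / r) ^ (n + 1) := by
        gcongr
        rw [geom_sum_eq (by linarith), div_le_iff₀ (by linarith)]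
        nlinarith [pow_nonneg (show 0 ≤ z₁ / r by linarith) (n + 1)]

theorem tendsto_psum {z : ℂ} (hs : Summable fun n => ‖a n‖ * ‖z‖ ^ n) :
    Tendsto (fun n => psum a n z) atTop (𝓝 (∑' k, a k * z ^ k)) := by
  have h : Summable fun n => a n * z ^ n :=
    Summable.of_norm (by simpa only [norm_mul, norm_pow] using hs)
  exact h.hasSum.tendsto_sum_nat.comp (tendsto_add_atTop_nat 1)

theorem one_le_radius (h : ∀ r : ℝ, 0 ≤ r → r < 1 → Summable fun n => ‖a n‖ * r ^ n) :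
    (1 : ℝ≥0∞) ≤ (FormalMultilinearSeries.ofScalars ℂ a).radius := by
  refine ENNReal.le_of_forall_nnreal_lt fun r hr => ?_
  refine FormalMultilinearSeries.le_radius_of_summable _ ?_
  simpa only [FormalMultilinearSeries.ofScalars_norm] using
    h r r.2 (by exact_mod_cast hr)

/-- The sum of the series is nonzero somewhere in every small disc inside the unit disc. -/
theorem exists_sum_ne_zero (h : ∀ r : ℝ, 0 ≤ r → r < 1 → Summable fun n => ‖a n‖ * r ^ n)
    (ha : a ≠ 0) {c₀ : ℂ} (hc₀ : ‖c₀‖ < 1) {ε : ℝ} (hε : 0 < ε) :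
    ∃ c, dist c c₀ < ε ∧ ‖c‖ < 1 ∧ ∑' k, a k * c ^ k ≠ 0 := by
  by_contra hcon
  push Not at hcon
  set p := FormalMultilinearSeries.ofScalars ℂ a
  have hrad : 0 < p.radius := zero_lt_one.trans_le (one_le_radius h)
  have hp := p.hasFPowerSeriesOnBall hrad
  have hsub : ball (0 : ℂ) 1 ⊆ eball 0 p.radius := fun z hz => by
    refine lt_of_lt_of_le ?_ (one_le_radius h)
    rw [edist_dist, ENNReal.ofReal_lt_one]
    exact hz
  have hf : AnalyticOnNhd ℂ p.sum (ball 0 1) := hp.analyticOnNhd.mono hsub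
  have hsum : ∀ z, p.sum z = ∑' k, a k * z ^ k := fun z =>
    FormalMultilinearSeries.ofScalars_sum_eq a z
  have hev : p.sum =ᶠ[𝓝 c₀] 0 := by
    have hm : c₀ ∈ ball (0 : ℂ) 1 := mem_ball_zero_iff.2 hc₀
    filter_upwards [isOpen_ball.mem_nhds hm, ball_mem_nhds c₀ hε] with z hz hz'
    exact (hsum z).trans (hcon z hz' (mem_ball_zero_iff.1 hz))
  have hzero := hf.eqOn_zero_of_preconnected_of_eventuallyEq_zero
    (convex_ball (0 : ℂ) 1).isPreconnected (mem_ball_zero_iff.2 hc₀) hev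
  have h0 : HasFPowerSeriesAt (0 : ℂ → ℂ) p 0 := by
    refine hp.hasFPowerSeriesAt.congr ?_
    filter_upwards [isOpen_ball.mem_nhds (mem_ball_self one_pos)] with z hz using hzero hz
  exact ha (FormalMultilinearSeries.ofScalars_series_eq_zero ℂ |>.1 h0.eq_zero)

/-- Jentzsch's theorem for radius of convergence one. -/
theorem jentzsch_one (hconv : ∀ r : ℝ, 0 ≤ r → r < 1 → Summable fun n => ‖a n‖ * r ^ n)
    (hdiv : ∀ r : ℝ, 1 < r → ¬ Summable fun n => ‖a n‖ * r ^ n)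
    {z₀ : ℂ} (hz₀ : ‖z₀‖ = 1) {δ : ℝ} (hδ : 0 < δ) :
    ∃ᶠ n in atTop, ∃ z, dist z z₀ < δ ∧ psum a n z = 0 := by
  intro hev
  obtain ⟨d, hd, hdδ, hd1⟩ : ∃ d, 0 < d ∧ d ≤ δ ∧ d ≤ 1 :=
    ⟨min δ 1, lt_min hδ one_pos, min_le_left _ _, min_le_right _ _⟩
  have ha : a ≠ 0 := by
    rintro rfl
    exact hdiv 2 one_lt_two (by simp [summable_zero])
  -- a centre inside the unit disc
  have hc₀ : ‖((1 - d / 4 : ℝ) : ℂ) * z₀‖ = 1 - d / 4 := by
    rw [norm_mul, norm_real, hz₀, mul_one, Real.norm_of_nonneg (by linarith)]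
  obtain ⟨c, hcd, hc1, hfc⟩ := exists_sum_ne_zero hconv ha
    (c₀ := ((1 - d / 4 : ℝ) : ℂ) * z₀) (by rw [hc₀]; linarith) (ε := d / 16) (by linarith)
  have hcz₀ : dist c z₀ < 5 * d / 16 := by
    have h1 : dist (((1 - d / 4 : ℝ) : ℂ) * z₀) z₀ = d / 4 := by
      rw [dist_eq, ← sub_one_mul, norm_mul, hz₀, mul_one, ← ofReal_one, ← ofReal_sub, norm_real,
        Real.norm_eq_abs, abs_of_nonpos (by linarith)]
      ring
    linarith [dist_triangle c (((1 - d / 4 : ℝ) : ℂ) * z₀) z₀]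
  set w : ℂ := ((1 + d / 16 : ℝ) : ℂ) * z₀ with hwdef
  have hwn : ‖w‖ = 1 + d / 16 := by
    rw [hwdef, norm_mul, norm_real, hz₀, mul_one, Real.norm_of_nonneg (by linarith)]
  have hwc : w ∈ ball c (d / 2) := by
    have h1 : dist w z₀ = d / 16 := by
      rw [hwdef, dist_eq, ← sub_one_mul, norm_mul, hz₀, mul_one, ← ofReal_one, ← ofReal_sub,
        norm_real, Real.norm_eq_abs, abs_of_nonneg (by linarith)]
      ring
    have := dist_triangle w z₀ c
    rw [dist_comm z₀ c] at this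
    rw [mem_ball]
    linarith
  have hsub : ∀ z ∈ ball c (d / 2), dist z z₀ < δ ∧ ‖z‖ ≤ 2 := fun z hz => by
    have h1 := dist_triangle z c z₀
    have h2 : ‖z‖ ≤ ‖z₀‖ + dist z z₀ := by
      simpa [dist_eq] using norm_le_norm_add_norm_sub' z z₀
    have h3 : dist z c < d / 2 := hz
    constructor <;> linarith
  -- constant bound near the centre
  obtain ⟨ρ, hρ0, hρr, hρ1⟩ : ∃ ρ, 0 < ρ ∧ ρ ≤ d / 2 ∧ ‖c‖ + ρ < 1 :=
    ⟨min (d / 2) ((1 - ‖c‖) / 2), lt_min (by linarith) (by linarith), min_le_left _ _,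
      by linarith [min_le_right (d / 2) ((1 - ‖c‖) / 2)]⟩
  have hs1 := hconv (‖c‖ + ρ) (by positivity) hρ1
  set C₁ := ∑' k, ‖a k‖ * (‖c‖ + ρ) ^ k
  -- linear bound on the large disc
  have hs2 := hconv (1 / 2) (by norm_num) (by norm_num)
  set C₂ := ∑' k, ‖a k‖ * (1 / 2 : ℝ) ^ k + 1
  have hC₂ : 1 ≤ C₂ := le_add_of_nonneg_left (tsum_nonneg fun k => by positivity)
  have hC₂k : ∀ k, ‖a k‖ * (1 / 2 : ℝ) ^ k ≤ C₂ := fun k => by
    have := hs2.le_tsum k fun j _ => by positivity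
    linarith
  -- the logarithms
  have hlim : Tendsto (fun n => psum a n c) atTop (𝓝 (∑' k, a k * c ^ k)) :=
    tendsto_psum (hconv _ (norm_nonneg c) hc1)
  set ℓ := ∑' k, a k * c ^ k
  have hℓ : 0 < ‖ℓ‖ := norm_pos_iff.2 hfc
  have hnz : ∀ᶠ n in atTop, ∀ z ∈ ball c (d / 2), psum a n z ≠ 0 := by
    filter_upwards [hev] with n hn z hz h
    exact hn ⟨z, (hsub z hz).1, h⟩
  have hlog : ∀ n, ∃ G : ℂ → ℂ, (∀ z ∈ ball c (d / 2), psum a n z ≠ 0) →
      DifferentiableOn ℂ G (ball c (d / 2)) ∧ G c = log (psum a n c) ∧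
        ∀ z ∈ ball c (d / 2), exp (G z) = psum a n z := fun n => by
    by_cases hn : ∀ z ∈ ball c (d / 2), psum a n z ≠ 0
    · obtain ⟨G, hG⟩ := exists_log_on_ball (by linarith) (differentiableOn_psum a n _) hn
      exact ⟨G, fun _ => hG⟩
    · exact ⟨0, fun h => absurd h hn⟩
  choose G hG using hlog
  have hlow : ∀ᶠ n in atTop, ‖ℓ‖ / 2 < ‖psum a n c‖ :=
    hlim.norm.eventually_const_lt (half_lt_self hℓ)
  set B := |Real.log (‖ℓ‖ / 2)|
  have hre : ∀ᶠ n : ℕ in atTop, ∀ z ∈ ball c (d / 2),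
      (G n z - G n c).re ≤ Real.log ‖psum a n z‖ + B := by
    filter_upwards [hnz, hlow] with n hn hl z hz
    obtain ⟨-, hc, hexp⟩ := hG n hn
    rw [sub_re, hc, log_re, ← hexp z hz, norm_exp, Real.log_exp]
    have h1 : Real.log (‖ℓ‖ / 2) ≤ Real.log ‖psum a n c‖ := Real.log_le_log (by positivity) hl.le
    linarith [neg_abs_le (Real.log (‖ℓ‖ / 2))]
  set M := Real.log C₂ + 2 * Real.log 4 + B + 1
  set L := |Real.log C₁| + B + 1
  have hl4 : 0 ≤ Real.log 4 := Real.log_nonneg (by norm_num)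
  have hlC : 0 ≤ Real.log C₂ := Real.log_nonneg hC₂
  have hB : 0 ≤ B := abs_nonneg _
  have hmain : Tendsto (fun n : ℕ => (G n w - G n c) / n) atTop (𝓝 0) := by
    refine tendsto_div_of_re_bounds (M := M) (L := L) (G := fun n z => G n z - G n c)
      (by positivity) (by positivity) hρ0 hρr hwc ?_
    filter_upwards [hnz, hre, eventually_ge_atTop 1] with n hn hr hn1
    refine ⟨((hG n hn).1).sub_const _, sub_self _, fun z hz => ?_, fun z hz => ?_⟩
    · have h1 := norm_psum_le_pow (r := 1 / 2) (z₁ := 2) (by norm_num) hC₂k (by norm_num)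
        (hsub z hz).2 n
      have h2 := Real.log_le_log (norm_pos_iff.2 (hn z hz)) h1
      rw [Real.log_mul (by positivity) (by positivity), Real.log_pow] at h2
      have hn1' : (1 : ℝ) ≤ n := by exact_mod_cast hn1
      have h4 : Real.log ((2 : ℝ) / (1 / 2)) = Real.log 4 := by norm_num
      rw [h4] at h2
      push_cast at h2
      refine (hr z hz).trans ?_
      nlinarith
    · have hz' : z ∈ ball c (d / 2) := ball_subset_ball hρr hz
      have hzn : ‖z‖ ≤ ‖c‖ + ρ := by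
        have h3 : dist z c < ρ := hz
        have := norm_le_norm_add_norm_sub' z c
        rw [← dist_eq] at this
        linarith
      have h1 := Real.log_le_log (norm_pos_iff.2 (hn z hz')) (norm_psum_le_tsum hs1 hzn n)
      refine (hr z hz').trans ?_
      linarith [le_abs_self (Real.log C₁)]
  -- the contradiction
  set ε := Real.log ‖w‖ / 2 with hεdef
  have hε : 0 < ε := by
    have : 0 < Real.log ‖w‖ := Real.log_pos (by rw [hwn]; linarith)
    linarith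
  have hup : ∀ᶠ n : ℕ in atTop, ‖psum a n w‖ ≤ Real.exp (n * ε) := by
    have h0 : Tendsto (fun n : ℕ => ‖(G n w - G n c) / n‖ + (|Real.log ‖ℓ‖| + 1) / n) atTop
        (𝓝 0) := by
      simpa using hmain.norm.add (tendsto_const_div_atTop_nhds_zero_nat _)
    have hlogc : ∀ᶠ n in atTop, Real.log ‖psum a n c‖ < |Real.log ‖ℓ‖| + 1 :=
      (hlim.norm.log hℓ.ne').eventually_lt_const (by linarith [le_abs_self (Real.log ‖ℓ‖)])
    filter_upwards [h0.eventually_lt_const hε, hlogc, hnz, eventually_gt_atTop 0] with n h hl hn hn0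
    have hn' : (0 : ℝ) < n := by exact_mod_cast hn0
    obtain ⟨-, hc, hexp⟩ := hG n hn
    rw [← hexp w hwc, norm_exp, Real.exp_le_exp]
    rw [norm_div, norm_natCast, ← add_div, div_lt_iff₀ hn'] at h
    have h2 := re_le_norm (G n w - G n c)
    rw [sub_re, hc, log_re] at h2
    rw [hc] at h
    linarith
  obtain ⟨N, hN⟩ := hup.exists_forall_of_atTop
  refine hdiv (Real.exp (ε / 2)) (Real.one_lt_exp_iff.2 (half_pos hε)) ?_
  refine Summable.of_norm_bounded_eventually_nat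
    ((summable_geometric_of_lt_one (Real.exp_nonneg (-ε / 2))
      (Real.exp_lt_one_iff.2 (by linarith))).mul_left 2) ?_
  filter_upwards [eventually_gt_atTop N] with n hn
  obtain ⟨m, rfl⟩ : ∃ m, n = m + 1 := ⟨n - 1, by omega⟩
  have h1 : a (m + 1) * w ^ (m + 1) = psum a (m + 1) w - psum a m w := by
    simp [psum, sum_range_succ _ (m + 1)]
  have h2 : ‖a (m + 1)‖ * ‖w‖ ^ (m + 1) ≤ 2 * Real.exp ((m + 1 : ℕ) * ε) := by
    rw [← norm_pow, ← norm_mul, h1]
    have hA := hN (m + 1) (by omega)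
    have hB : ‖psum a m w‖ ≤ Real.exp ((m + 1 : ℕ) * ε) :=
      (hN m (by omega)).trans (Real.exp_le_exp.2 (by push_cast; nlinarith))
    linarith [norm_sub_le (psum a (m + 1) w) (psum a m w)]
  have hw0 : 0 < ‖w‖ := by rw [hwn]; linarith
  rw [Real.norm_of_nonneg (by positivity)]
  have h3 : ‖a (m + 1)‖ ≤ 2 * Real.exp ((m + 1 : ℕ) * ε) / ‖w‖ ^ (m + 1) :=
    (le_div_iff₀ (by positivity)).2 h2
  have hw2 : ‖w‖ = Real.exp (2 * ε) := by
    rw [hεdef, mul_div_cancel₀ _ (two_ne_zero' ℝ), Real.exp_log hw0]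
  calc ‖a (m + 1)‖ * Real.exp (ε / 2) ^ (m + 1)
      ≤ 2 * Real.exp ((m + 1 : ℕ) * ε) / ‖w‖ ^ (m + 1) * Real.exp (ε / 2) ^ (m + 1) :=
        mul_le_mul_of_nonneg_right h3 (by positivity)
    _ = 2 * Real.exp (-ε / 2) ^ (m + 1) := by
        rw [hw2, ← Real.exp_nat_mul, ← Real.exp_nat_mul, ← Real.exp_nat_mul, mul_div_assoc,
          ← Real.exp_sub, mul_assoc, ← Real.exp_add]
        ring_nf

/-- **Jentzsch's theorem**. -/
theorem jentzsch_scaled {R : ℝ} (hR : 0 < R)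
    (hconv : ∀ r : ℝ, 0 ≤ r → r < R → Summable fun n => ‖a n‖ * r ^ n)
    (hdiv : ∀ r : ℝ, R < r → ¬ Summable fun n => ‖a n‖ * r ^ n)
    {z₀ : ℂ} (hz₀ : ‖z₀‖ = R) {δ : ℝ} (hδ : 0 < δ) :
    ∃ᶠ n in atTop, ∃ z, dist z z₀ < δ ∧ psum a n z = 0 := by
  have hb : ∀ r : ℝ, (fun n => ‖a n * (R : ℂ) ^ n‖ * r ^ n) = fun n => ‖a n‖ * (R * r) ^ n :=
    fun r => funext fun n => by
      rw [norm_mul, norm_pow, norm_real, Real.norm_of_nonneg hR.le, mul_pow, mul_assoc]
  have hR' : (R : ℂ) ≠ 0 := by exact_mod_cast hR.ne'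
  refine (jentzsch_one (a := fun n => a n * (R : ℂ) ^ n) (z₀ := z₀ / R) (δ := δ / R)
    (fun r h0 h1 => by rw [hb r]; exact hconv _ (by positivity) (by nlinarith))
    (fun r h1 => by rw [hb r]; exact hdiv _ (by nlinarith))
    (by rw [norm_div, norm_real, Real.norm_of_nonneg hR.le, hz₀, div_self hR.ne'])
    (by positivity)).mono ?_
  rintro n ⟨z, hz, h⟩
  refine ⟨R * z, ?_, ?_⟩
  · rw [dist_eq] at hz ⊢
    have : (R : ℂ) * z - z₀ = R * (z - z₀ / R) := by field_simp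
    rw [this, norm_mul, norm_real, Real.norm_of_nonneg hR.le, mul_comm]
    exact (lt_div_iff₀ hR).1 hz
  · rw [← h]
    exact sum_congr rfl fun k _ => by rw [mul_pow, mul_assoc]

end FA.Jentzsch
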